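import Fermat.Agent.Duality.Core.Basic
import Fermat.Agent.Duality.Core.Inner

/-!
# Localisation at conjugate subgroups, and cohomology of finite groups of invertible order
-/

set_option autoImplicit false

namespace FermatAgent.Duality

noncomputable section

variable {k G : Type*} [CommRing k] [Group G] {L : LevelSystem G}
variable {M : Type*} [AddCommGroup M] [Module k M] (ρ : Representation k G M)

section Conj

variable {H H' : Type*} [Group H] [Group H'] {LH : LevelSystem H} {LH' : LevelSystem H'}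
variable {f : H →* G} {f' : H' →* G} (hf : IsLevHom LH L f) (hf' : IsLevHom LH' L f')
variable (g : G) (e : H →* H') (he : ∀ h, f' (e h) = g⁻¹ * f h * g) (hel : IsLevHom LH LH' e)

/-- The factorisation of a homomorphism through the full subgroup. -/
def toTopHom (f : H →* G) : H →* (⊤ : Subgroup G) := f.codRestrict ⊤ fun _ => Subgroup.mem_top _

include hf in
lemma isLevHom_toTopHom :
    IsLevHom LH (L.comap (⊤ : Subgroup G).subtype) (toTopHom f) := by
  rintro _ ⟨U, hU, rfl⟩
  exact hf U hU

include he in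
lemma isEquivariant_of_conj :
    IsEquivariant (ρ.comp f') (ρ.comp f) e (ρ g) := fun h m => by
  show ρ g (ρ (f' (e h)) m) = ρ (f h) (ρ g m)
  rw [← Module.End.mul_apply, ← map_mul, ← Module.End.mul_apply, ← map_mul, he]
  congr 2
  group

include he hel in
/-- A class in degree `1` vanishing on a subgroup vanishes on its conjugates. -/
theorem map1_eq_zero_of_conj {x : H1c L ρ}
    (hx : map1 (φ := LinearMap.id) ρ (ρ.comp f') hf' (fun _ _ => rfl) x = 0) :
    map1 (φ := LinearMap.id) ρ (ρ.comp f) hf (fun _ _ => rfl) x = 0 := by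
  have h0 : map1 (φ := LinearMap.id) (ρ.comp (⊤ : Subgroup G).subtype) (ρ.comp f)
      (isLevHom_toTopHom hf) (fun _ _ => rfl) (conj1 L ρ ⊤ g (res1 L ρ ⊤ x)) =
      map1 (φ := ρ g) (ρ.comp f') (ρ.comp f) hel (isEquivariant_of_conj ρ g e he)
        (map1 (φ := LinearMap.id) ρ (ρ.comp f') hf' (fun _ _ => rfl) x) := by
    induction x using Submodule.Quotient.induction_on with
    | _ z =>
      refine congrArg (cl1 LH (ρ.comp f)) (Subtype.ext (funext fun h => ?_))
      show ρ g (z.1 (g⁻¹ * f h * g)) = ρ g (z.1 (f' (e h)))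
      rw [he]
  rw [hx, map_zero, conj1_of_mem L ρ ⊤ (Subgroup.mem_top g)] at h0
  refine Eq.trans ?_ h0
  induction x using Submodule.Quotient.induction_on with | _ z => rfl

include he hel in
/-- A class in degree `2` vanishing on a subgroup vanishes on its conjugates. -/
theorem map2_eq_zero_of_conj {x : H2c L ρ}
    (hx : map2 (φ := LinearMap.id) ρ (ρ.comp f') hf' (fun _ _ => rfl) x = 0) :
    map2 (φ := LinearMap.id) ρ (ρ.comp f) hf (fun _ _ => rfl) x = 0 := by
  have h0 : map2 (φ := LinearMap.id) (ρ.comp (⊤ : Subgroup G).subtype) (ρ.comp f)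
      (isLevHom_toTopHom hf) (fun _ _ => rfl) (conj2 L ρ ⊤ g (res2 L ρ ⊤ x)) =
      map2 (φ := ρ g) (ρ.comp f') (ρ.comp f) hel (isEquivariant_of_conj ρ g e he)
        (map2 (φ := LinearMap.id) ρ (ρ.comp f') hf' (fun _ _ => rfl) x) := by
    induction x using Submodule.Quotient.induction_on with
    | _ z =>
      refine congrArg (cl2 LH (ρ.comp f)) (Subtype.ext (funext fun q => ?_))
      show ρ g (z.1 (g⁻¹ * f q.1 * g, g⁻¹ * f q.2 * g)) = ρ g (z.1 (f' (e q.1), f' (e q.2)))
      rw [he, he]
  rw [hx, map_zero, conj2_of_mem L ρ ⊤ (Subgroup.mem_top g)] at h0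
  refine Eq.trans ?_ h0
  induction x using Submodule.Quotient.induction_on with | _ z => rfl

end Conj

section Finite

variable [Fintype G] (hG : IsUnit (Fintype.card G : k))

include hG in
/-- A finite group of invertible order has no cohomology in degree `1`. -/
theorem H1c_eq_zero_of_isUnit_card (x : H1c L ρ) : x = 0 := by
  induction x using Submodule.Quotient.induction_on with
  | _ z =>
    obtain ⟨u, hu⟩ := hG
    refine (cl1_eq_zero_iff L ρ z).2 ⟨-((↑u⁻¹ : k) • ∑ h, z.1 h), funext fun g => ?_⟩
    have hS : (∑ h, z.1 h) = ρ g (∑ h, z.1 h) + (u : k) • z.1 g := by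
      rw [hu, Nat.cast_smul_eq_nsmul, map_sum, ← Finset.card_univ, ← Finset.sum_const,
        ← Finset.sum_add_distrib]
      exact (Equiv.sum_comp (Equiv.mulLeft g) z.1).symm.trans
        (Finset.sum_congr rfl fun h _ => z.2.2 g h)
    have hS' : (↑u⁻¹ : k) • (∑ h, z.1 h) = ρ g ((↑u⁻¹ : k) • ∑ h, z.1 h) + z.1 g := by
      have := congrArg ((↑u⁻¹ : k) • ·) hS
      simpa [smul_add, map_smul, smul_smul] using this
    rw [dd₀_apply, map_neg]
    linear_combination (norm := abel) hS'

include hG in
/-- A finite group of invertible order has no cohomology in degree `2`. -/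
theorem H2c_eq_zero_of_isUnit_card (x : H2c L ρ) : x = 0 := by
  induction x using Submodule.Quotient.induction_on with
  | _ z =>
    obtain ⟨u, hu⟩ := hG
    have hlev : IsLev₁ L fun g => ∑ j, z.1 (g, j) := by
      obtain ⟨U, hU, h⟩ := z.2.1
      exact ⟨U, hU, fun g s hs => Finset.sum_congr rfl fun j _ => by
        simpa using h g j s hs 1 (one_mem U)⟩
    refine (cl2_eq_zero_iff L ρ z).2 ⟨(↑u⁻¹ : k) • (fun g => ∑ j, z.1 (g, j)),
      hlev.comp ((↑u⁻¹ : k) • ·), funext fun q => ?_⟩
    obtain ⟨g, h⟩ := q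
    have hS : (∑ j, z.1 (g * h, j)) + (u : k) • z.1 (g, h) =
        ρ g (∑ j, z.1 (h, j)) + ∑ j, z.1 (g, j) := by
      rw [hu, Nat.cast_smul_eq_nsmul, map_sum, ← Finset.card_univ, ← Finset.sum_const,
        ← Finset.sum_add_distrib,
        ← Equiv.sum_comp (Equiv.mulLeft h) (fun j => z.1 (g, j)), ← Finset.sum_add_distrib]
      exact Finset.sum_congr rfl fun j _ => z.2.2 g h j
    have hS' := congrArg ((↑u⁻¹ : k) • ·) hS
    simp only [smul_add, smul_smul, Units.inv_mul, one_smul] at hS'
    simp only [map_smul, Pi.smul_apply, dd₁_apply]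
    linear_combination (norm := abel) -hS'

end Finite

end

end FermatAgent.Duality
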