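import Fermat.Agent.LocalP.Places
import Fermat.Agent.GalRep.Density.Split
import Fermat.Prelude.Def_GroupCohomology_ContinuousUnramified

/-!
# A number field ramifies only at finitely many primes
-/

set_option autoImplicit false

open scoped Pointwise

namespace FermatAgent.Duality

noncomputable section

local notation "Qb" => AlgebraicClosure ℚ
local notation "GQ" => AlgebraicClosure ℚ ≃ₐ[ℚ] AlgebraicClosure ℚ
local notation "ZB" => integralClosure ℤ (AlgebraicClosure ℚ)

attribute [local instance] FermatAgent.RT.isGalois_algClosureRat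

open FermatAgent.RT (centre)

/-- An algebraic number is fixed by inertia at almost all primes. -/
theorem finite_setOf_inertia_moves (x : Qb) :
    {q : ℕ | q.Prime ∧ ∃ A : ValuationSubring Qb, A.LiesOverPrime q ∧
      ∃ σ ∈ A.inertiaSubgroupIn ℚ, σ x ≠ x}.Finite := by
  obtain ⟨n, hn, hint⟩ : ∃ n : ℤ, n ≠ 0 ∧ IsIntegral ℤ (n • x) :=
    IsAlgebraic.exists_integral_multiple
      ((IsFractionRing.isAlgebraic_iff ℤ ℚ Qb).mpr (Algebra.IsAlgebraic.isAlgebraic x))
  let b : ZB := ⟨n • x, hint⟩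
  let E : Set ZB := {e | e ≠ 0 ∧ ∃ σ : GQ, (e : Qb) = σ (b : Qb) - (b : Qb)}
  have hE : E.Finite := by
    refine Set.Finite.of_finite_image (f := fun e : ZB => (e : Qb) + (b : Qb)) ?_
      (Set.injOn_of_injective fun e e' h => Subtype.ext (add_right_cancel h))
    refine (Polynomial.rootSet_finite (minpoly ℚ (b : Qb)) Qb).subset ?_
    rintro _ ⟨e, ⟨-, σ, he⟩, rfl⟩
    simp only [he, sub_add_cancel]
    rw [Polynomial.mem_rootSet_of_ne (minpoly.ne_zero (Algebra.IsIntegral.isIntegral _)),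
      Polynomial.aeval_algHom_apply, minpoly.aeval, map_zero]
  refine ((hE.biUnion fun e he => GalRep.finite_setOf_mem_centre he.1)).subset ?_
  rintro q ⟨hq, A, hA, σ, hσ, hne⟩
  have hb : σ (b : Qb) - (b : Qb) ≠ 0 := by
    rw [sub_ne_zero]
    intro h
    apply hne
    have h' : n • σ x = n • x := (map_zsmul σ n x).symm.trans h
    exact smul_right_injective Qb hn h'
  let e : ZB := ⟨σ (b : Qb) - (b : Qb), (hint.map (σ : Qb →ₐ[ℚ] Qb).toRingHom.toIntAlgHom).sub hint⟩
  refine Set.mem_biUnion (show e ∈ E from ⟨fun h => hb (congrArg Subtype.val h), σ, rfl⟩)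
    ⟨hq, A, hA, ?_⟩
  rw [RT.mem_centre_iff]
  exact (LocalP.mem_inertia_iff_sub_mem.mp hσ).2 _ (RT.mem_of_isIntegral_int A hint)

/-- A finite extension of `ℚ` is unramified outside a finite set of primes, which may be taken to
contain any given one. -/
theorem exists_isUnramifiedOutside (F : IntermediateField ℚ Qb) [FiniteDimensional ℚ F]
    (S₀ : Finset Nat.Primes) :
    ∃ S : Finset Nat.Primes, S₀ ⊆ S ∧ F.IsUnramifiedOutside S := by
  classical
  let B := Module.finBasis ℚ F
  have hfin : {q : Nat.Primes | ∃ i, ∃ A : ValuationSubring Qb, A.LiesOverPrime (q : ℕ) ∧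
      ∃ σ ∈ A.inertiaSubgroupIn ℚ, σ (B i : Qb) ≠ (B i : Qb)}.Finite := by
    refine ((Set.finite_iUnion fun i => finite_setOf_inertia_moves (B i : Qb)).preimage
      Nat.Primes.coe_nat_injective.injOn).subset ?_
    rintro q ⟨i, h⟩
    exact Set.mem_iUnion.mpr ⟨i, q.2, h⟩
  refine ⟨S₀ ∪ hfin.toFinset, Finset.subset_union_left, inferInstance,
    fun q hq A hA σ hσ => (IntermediateField.mem_fixingSubgroup_iff _ _).mpr fun x hx => ?_⟩
  have hfix : ∀ i, σ (B i : Qb) = (B i : Qb) := fun i => by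
    by_contra h
    exact hq (Finset.mem_union_right _ (hfin.mem_toFinset.mpr ⟨i, A, hA, σ, hσ, h⟩))
  exact LinearMap.congr_fun (B.ext (f₁ := σ.toLinearMap ∘ₗ F.val.toLinearMap)
    (f₂ := F.val.toLinearMap) hfix) (⟨x, hx⟩ : F)

end

end FermatAgent.Duality
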