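import Fermat.Agent.Duality.Bridge.Generic
import Fermat.Agent.Duality.Bridge.Ramified
import Fermat.Agent.Duality.Global.Interface
import Fermat.Agent.ExtVanish.Cocycle

/-!
# Finiteness of `H¹(G_S, M)` for a finite module `M`
-/

set_option autoImplicit false

namespace FermatAgent.Duality

noncomputable section

local notation "Qb" => AlgebraicClosure ℚ
local notation "GQ" => AlgebraicClosure ℚ ≃ₐ[ℚ] AlgebraicClosure ℚ

attribute [local instance] FermatAgent.RT.isGalois_algClosureRat

variable (p : ℕ) [Fact p.Prime]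

/-- A finite normal extension of `ℚ` which contains `μ_p` and kills a given finite module. -/
theorem exists_splittingField {V : Type} [AddCommGroup V] [Module (ZMod p) V]
    [FiniteDimensional (ZMod p) V] (ρ : Representation (ZMod p) GQ V)
    (hsm : ∀ m : V, ∃ F : IntermediateField ℚ Qb, FiniteDimensional ℚ F ∧
      ∀ s ∈ F.fixingSubgroup, ρ s m = m) :
    ∃ L : IntermediateField ℚ Qb, FiniteDimensional ℚ L ∧ L.fixingSubgroup.Normal ∧
      ContainsMuP p L ∧ ∀ s ∈ L.fixingSubgroup, ∀ m, ρ s m = m := by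
  choose F hF hfix using hsm
  have : Finite V := Module.finite_of_finite (ZMod p)
  obtain ⟨ζ, hζ⟩ : ∃ ζ : Qb, IsPrimitiveRoot ζ p := by
    have : NeZero p := ⟨(Fact.out : p.Prime).ne_zero⟩
    exact HasEnoughRootsOfUnity.exists_primitiveRoot Qb p
  have : ∀ m, FiniteDimensional ℚ (F m) := hF
  have : FiniteDimensional ℚ (IntermediateField.adjoin ℚ {ζ}) :=
    IntermediateField.adjoin.finiteDimensional (Algebra.IsIntegral.isIntegral _)
  let K := (⨆ m, F m) ⊔ IntermediateField.adjoin ℚ {ζ}
  have : FiniteDimensional ℚ K := inferInstance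
  let L := IntermediateField.normalClosure ℚ K Qb
  have hle : K ≤ L := IntermediateField.le_normalClosure K
  have : IsGalois ℚ L := IsGalois.normalClosure ℚ K Qb
  refine ⟨L, normalClosure.is_finiteDimensional ℚ K Qb,
    (InfiniteGalois.normal_iff_isGalois L).mpr inferInstance, fun σ hσ => ?_, fun s hs m => ?_⟩
  · have h : σ ζ = ζ := (IntermediateField.mem_fixingSubgroup_iff _ _).mp hσ ζ
      (hle (le_sup_right (a := ⨆ m, F m) (IntermediateField.mem_adjoin_simple_self ℚ ζ)))
    refine Units.ext ?_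
    rw [ExtVanish.exists_apply_eq_pow_cycloChar_eq σ hζ (a := 1) (by rw [pow_one, h]),
      Nat.cast_one, Units.val_one]
  · exact hfix m s
      (IntermediateField.fixingSubgroup_antitone (((le_iSup F m).trans le_sup_left).trans hle) hs)

variable {p}

theorem isLevHom_globalLevels {T T' : Finset Nat.Primes} (h : T ⊆ T')
    (L : IntermediateField ℚ Qb) :
    IsLevHom (globalLevels L T') (sLevels T) L.fixingSubgroup.subtype := by
  rintro _ ⟨F, hF, rfl⟩
  exact ⟨_, ⟨F.fixingSubgroup, ⟨F, hF.mono h, rfl⟩, rfl⟩, le_rfl⟩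

/-- `H¹(G_T, M)` is finite. -/
theorem finite_H1c_sLevels {V : Type} [AddCommGroup V] [Module (ZMod p) V]
    [FiniteDimensional (ZMod p) V] (ρ : Representation (ZMod p) GQ V)
    (hsm : ∀ m : V, ∃ F : IntermediateField ℚ Qb, FiniteDimensional ℚ F ∧
      ∀ s ∈ F.fixingSubgroup, ρ s m = m)
    (T : Finset Nat.Primes) : Module.Finite (ZMod p) (H1c (sLevels T) ρ) := by
  classical
  obtain ⟨L, hLfd, hLn, hmu, htriv⟩ := exists_splittingField p ρ hsm
  obtain ⟨T', hsub, hL⟩ := exists_isUnramifiedOutside L (insert (ExtCitation.pPrime p) T)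
  have := finite_globalH1 p L T' hmu hL (hsub (Finset.mem_insert_self _ _))
  set N := L.fixingSubgroup
  let B := Module.finBasis (ZMod p) V
  have hco : ∀ i, IsEquivariant ρ (triv (ZMod p) N) N.subtype (B.coord i) := fun i n m => by
    show B.coord i (ρ (n : GQ) m) = B.coord i m
    rw [htriv _ n.2]
  let Φ : H1c (sLevels T) ρ →ₗ[ZMod p] (Fin _ → globalH1 p L T') :=
    LinearMap.pi fun i => map1 ρ (triv (ZMod p) N)
      (isLevHom_globalLevels ((Finset.subset_insert _ _).trans hsub) L) (hco i)
  let W : Submodule (ZMod p) (Z1 (sLevels T) ρ) :=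
    ⨅ n : N, LinearMap.ker (LinearMap.proj (n : GQ) ∘ₗ (Z1 (sLevels T) ρ).subtype)
  have hker : LinearMap.ker Φ ≤ W.map (cl1 (sLevels T) ρ) := by
    intro x hx
    induction x using Submodule.Quotient.induction_on with
    | _ z =>
      refine ⟨z, Submodule.mem_iInf _ |>.mpr fun n => LinearMap.mem_ker.mpr (B.ext_elem fun i => ?_),
        rfl⟩
      obtain ⟨r, hr⟩ := (cl1_eq_zero_iff _ _ _).mp (congrFun (LinearMap.mem_ker.mp hx) i)
      show B.repr (z.1 (n : GQ)) i = B.repr 0 i
      rw [map_zero, Finsupp.zero_apply, show B.repr (z.1 (n : GQ)) i = _ from (congrFun hr n).symm]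
      simp
  have : N.FiniteIndex := finiteIndex_fixingSubgroup L
  have : Finite V := Module.finite_of_finite (ZMod p)
  have hW : Finite W := by
    refine Finite.of_injective (fun (z : W) (c : GQ ⧸ N) => (z.1.1 c.out : V)) fun a b hab => ?_
    refine Subtype.ext (Subtype.ext (funext fun g => ?_))
    have key : ∀ z : W, z.1.1 g = z.1.1 (QuotientGroup.mk (s := N) g).out := fun z => by
      obtain ⟨h, hh⟩ := QuotientGroup.mk_out_eq_mul N g
      have hz : z.1.1 (h : GQ) = 0 := LinearMap.mem_ker.mp (Submodule.mem_iInf _ |>.mp z.2 h)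
      rw [hh, z.1.2.2, hz, map_zero, zero_add]
    rw [key a, key b]
    exact congrFun hab _
  have : Module.Finite (ZMod p) W := Module.Finite.of_finite
  have : FiniteDimensional (ZMod p) (W.map (cl1 (sLevels T) ρ)) := inferInstance
  refine ⟨Submodule.fg_of_fg_map_of_fg_inf_ker Φ (IsNoetherian.noetherian _) ?_⟩
  rw [top_inf_eq, ← Module.Finite.iff_fg]
  exact Submodule.finiteDimensional_of_le hker

end

end FermatAgent.Duality
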