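import Fermat.Agent.Duality.Core.GaloisS
import Fermat.Agent.Duality.Core.Maps
import Fermat.Prelude.Def_GroupCohomology_ContinuousUnramified

/-!
# Level-constant cohomology and the continuous cohomology of the Prelude
-/

set_option autoImplicit false

namespace FermatAgent.Duality

open groupCohomology CategoryTheory

noncomputable section

local notation "Qb" => AlgebraicClosure ℚ
local notation "GQ" => AlgebraicClosure ℚ ≃ₐ[ℚ] AlgebraicClosure ℚ

section Levels

variable {G : Type} [Group G] (r : G →* GQ) {X : Type*}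

theorem isLev₁_comap_iff {f : G → X} : IsLev₁ (qLevels.comap r) f ↔ IsLevelConstant₁ r f := by
  constructor
  · rintro ⟨_, ⟨_, ⟨F, hF, rfl⟩, rfl⟩, h⟩
    exact ⟨F, hF, fun g s hs => h g s hs⟩
  · rintro ⟨F, hF, h⟩
    exact ⟨_, ⟨_, ⟨F, hF, rfl⟩, rfl⟩, fun g s hs => h g s hs⟩

theorem isLev₂_comap_iff {f : G × G → X} :
    IsLev₂ (qLevels.comap r) f ↔ IsLevelConstant₂ r f := by
  constructor
  · rintro ⟨_, ⟨_, ⟨F, hF, rfl⟩, rfl⟩, h⟩
    exact ⟨F, hF, fun g g' s s' hs hs' => h g g' s hs s' hs'⟩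
  · rintro ⟨F, hF, h⟩
    exact ⟨_, ⟨_, ⟨F, hF, rfl⟩, rfl⟩, fun g g' s hs s' hs' => h g g' s s' hs hs'⟩

theorem isLev₁_sLevels_iff {S : Finset Nat.Primes} {f : GQ → X} :
    IsLev₁ (sLevels S) f ↔ IsLevelConstantS₁ S f := by
  constructor
  · rintro ⟨_, ⟨F, hF, rfl⟩, h⟩
    exact ⟨F, hF, fun g s hs => h g s hs⟩
  · rintro ⟨F, hF, h⟩
    exact ⟨_, ⟨F, hF, rfl⟩, fun g s hs => h g s hs⟩

theorem isLev₂_sLevels_iff {S : Finset Nat.Primes} {f : GQ × GQ → X} :
    IsLev₂ (sLevels S) f ↔ IsLevelConstantS₂ S f := by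
  constructor
  · rintro ⟨_, ⟨F, hF, rfl⟩, h⟩
    exact ⟨F, hF, fun g g' s s' hs hs' => h g g' s hs s' hs'⟩
  · rintro ⟨F, hF, h⟩
    exact ⟨_, ⟨F, hF, rfl⟩, fun g g' s hs s' hs' => h g g' s s' hs hs'⟩

end Levels

section H1

variable {k G : Type} [CommRing k] [Group G] (L : LevelSystem G) (M : Rep k G)

/-- A level-constant cocycle as a cocycle. -/
def toCocycles₁ : Z1 L M.ρ →ₗ[k] cocycles₁ M where
  toFun f := ⟨f.1, (mem_cocycles₁_iff f.1).2 f.2.2⟩
  map_add' _ _ := rfl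
  map_smul' _ _ := rfl

/-- From level-constant classes to `H¹`. -/
def toH1 : H1c L M.ρ →ₗ[k] H1 M :=
  (B1 L M.ρ).liftQ ((H1π M).hom ∘ₗ toCocycles₁ L M) fun _ hf =>
    LinearMap.mem_ker.mpr ((H1π_eq_zero_iff _).2 hf)

theorem toH1_injective : Function.Injective (toH1 L M) := by
  rw [← LinearMap.ker_eq_bot]
  refine (Submodule.eq_bot_iff _).mpr fun x hx => ?_
  induction x using Submodule.Quotient.induction_on with
  | _ f => exact (cl1_eq_zero_iff L M.ρ f).2 ((H1π_eq_zero_iff _).1 hx)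

theorem mem_range_toH1 (x : H1 M) :
    x ∈ LinearMap.range (toH1 L M) ↔
      ∃ c : cocycles₁ M, IsLev₁ L c ∧ (H1π M).hom c = x := by
  constructor
  · rintro ⟨y, rfl⟩
    induction y using Submodule.Quotient.induction_on with
    | _ f => exact ⟨toCocycles₁ L M f, f.2.1, rfl⟩
  · rintro ⟨c, hc, rfl⟩
    exact ⟨cl1 L M.ρ ⟨c, hc, (mem_cocycles₁_iff c.1).1 c.2⟩, rfl⟩

theorem range_toH1_comap (r : G →* GQ) :
    LinearMap.range (toH1 (qLevels.comap r) M) = continuousH1 r M := by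
  ext x
  simp only [mem_range_toH1, mem_continuousH1_iff, isLev₁_comap_iff]

theorem range_toH1_sLevels (M : Rep k GQ) (S : Finset Nat.Primes) :
    LinearMap.range (toH1 (sLevels S) M) = continuousH1S S M := by
  ext x
  simp only [mem_range_toH1, mem_continuousH1S_iff, isLev₁_sLevels_iff]

/-- Continuous classes in degree `1`. -/
def continuousH1Equiv (r : G →* GQ) :
    H1c (qLevels.comap r) M.ρ ≃ₗ[k] continuousH1 r M :=
  LinearEquiv.ofInjective _ (toH1_injective _ M) ≪≫ₗ LinearEquiv.ofEq _ _ (range_toH1_comap M r)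

@[simp] theorem coe_continuousH1Equiv (r : G →* GQ) (x : H1c (qLevels.comap r) M.ρ) :
    (continuousH1Equiv M r x : H1 M) = toH1 _ M x := rfl

/-- Classes unramified outside `S` in degree `1`. -/
def continuousH1SEquiv (M : Rep k GQ) (S : Finset Nat.Primes) :
    H1c (sLevels S) M.ρ ≃ₗ[k] continuousH1S S M :=
  LinearEquiv.ofInjective _ (toH1_injective _ M) ≪≫ₗ LinearEquiv.ofEq _ _ (range_toH1_sLevels M S)

@[simp] theorem coe_continuousH1SEquiv (M : Rep k GQ) (S : Finset Nat.Primes)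
    (x : H1c (sLevels S) M.ρ) : (continuousH1SEquiv M S x : H1 M) = toH1 _ M x := rfl

variable {L M}

/-- `toH1` is natural. -/
theorem map_toH1 {H : Type} [Group H] {L' : LevelSystem H} {f : H →* G} {N : Rep k H}
    (φ : Rep.res f M ⟶ N) (hf : IsLevHom L' L f)
    (hφ : IsEquivariant M.ρ N.ρ f φ.hom.toLinearMap) (x : H1c L M.ρ) :
    groupCohomology.map f φ 1 (toH1 L M x) =
      toH1 L' N (map1 M.ρ N.ρ hf hφ x) := by
  induction x using Submodule.Quotient.induction_on with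
  | _ z =>
    refine (H1π_comp_map_apply f φ (toCocycles₁ L M z)).trans ?_
    rfl

end H1

section H2

variable {k G : Type} [CommRing k] [Group G] (M : Rep k G) (r : G →* GQ)

theorem lev₁_comap_eq : lev₁ (k := k) (qLevels.comap r) = levelCochains₁ r M := by
  ext f
  exact isLev₁_comap_iff r

theorem Z2_comap_eq : Z2 (qLevels.comap r) M.ρ = levelCocycles₂ r M := by
  ext f
  rw [mem_Z2, mem_levelCocycles₂_iff, mem_cocycles₂_iff, isLev₂_comap_iff]
  exact and_comm

/-- Continuous classes in degree `2`. -/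
def continuousH2Equiv : H2c (qLevels.comap r) M.ρ ≃ₗ[k] continuousH2 r M :=
  Submodule.Quotient.equiv _ _ (LinearEquiv.ofEq _ _ (Z2_comap_eq M r)) <| by
    ext f
    rw [Submodule.mem_map_equiv]
    show ((LinearEquiv.ofEq _ _ (Z2_comap_eq M r)).symm f).1 ∈ (lev₁ (qLevels.comap r)).map (dd₁ M.ρ)
      ↔ f.1 ∈ levelCoboundaries₂ r M
    rw [lev₁_comap_eq]
    rfl

theorem lev₁_sLevels_eq (M : Rep k GQ) (S : Finset Nat.Primes) :
    lev₁ (k := k) (sLevels S) = levelCochainsS₁ S M := by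
  ext f
  exact isLev₁_sLevels_iff

theorem Z2_sLevels_eq (M : Rep k GQ) (S : Finset Nat.Primes) :
    Z2 (sLevels S) M.ρ = levelCocyclesS₂ S M := by
  ext f
  rw [mem_Z2, mem_levelCocyclesS₂_iff, mem_cocycles₂_iff, isLev₂_sLevels_iff]
  exact and_comm

/-- Classes unramified outside `S` in degree `2`. -/
def continuousH2SEquiv (M : Rep k GQ) (S : Finset Nat.Primes) :
    H2c (sLevels S) M.ρ ≃ₗ[k] continuousH2S S M :=
  Submodule.Quotient.equiv _ _ (LinearEquiv.ofEq _ _ (Z2_sLevels_eq M S)) <| by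
    ext f
    rw [Submodule.mem_map_equiv]
    show ((LinearEquiv.ofEq _ _ (Z2_sLevels_eq M S)).symm f).1 ∈ (lev₁ (sLevels S)).map (dd₁ M.ρ)
      ↔ f.1 ∈ levelCoboundariesS₂ S M
    rw [lev₁_sLevels_eq]
    rfl

/-- Localisation in degree `2` is `map2`. -/
theorem locRes₂S_continuousH2SEquiv (M : Rep k GQ) (S : Finset Nat.Primes)
    (hl : IsLevHom (qLevels.comap r) (sLevels S) r) (x : H2c (sLevels S) M.ρ) :
    locRes₂S S M r (continuousH2SEquiv M S x) =
      continuousH2Equiv (Rep.res r M) r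
        (map2 (φ := LinearMap.id) M.ρ (Rep.res r M).ρ hl (fun _ _ => rfl) x) := by
  induction x using Submodule.Quotient.induction_on with
  | _ z => rfl

end H2

end

end FermatAgent.Duality
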