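import Fermat.Agent.Duality.Bridge.Generic
import Fermat.Agent.Duality.Bridge.Conj
import Fermat.Agent.Duality.Local.Interface
import Fermat.Agent.TW.Places

/-!
# Locally trivial classes at decomposition groups

The local groups `extArithLoc S` are replaced by the decomposition groups of chosen places of `ℚ̄`
over the primes in `S`; the archimedean group has order at most `2` and contributes nothing when
`2` is invertible.
-/

set_option autoImplicit false

open scoped Pointwise

namespace FermatAgent.Duality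

open groupCohomology CategoryTheory ExtCitation

noncomputable section

local notation "Qb" => AlgebraicClosure ℚ
local notation "GQ" => AlgebraicClosure ℚ ≃ₐ[ℚ] AlgebraicClosure ℚ

theorem isLevHom_comap_sLevels {G : Type} [Group G] (r : G →* GQ) (S : Finset Nat.Primes) :
    IsLevHom (qLevels.comap r) (sLevels S) r := by
  rintro _ ⟨F, hF, rfl⟩
  exact ⟨_, ⟨F.fixingSubgroup, ⟨F, hF.1, rfl⟩, rfl⟩, le_rfl⟩

theorem isLevHom_of_conj {H H' : Type} [Group H] [Group H'] {f : H →* GQ} {f' : H' →* GQ} (g : GQ)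
    (e : H →* H') (he : ∀ h, f' (e h) = g⁻¹ * f h * g) :
    IsLevHom (qLevels.comap f) (qLevels.comap f') e := by
  rintro _ ⟨U, hU, rfl⟩
  obtain ⟨V, hV, hle, hn⟩ := qLevels.exists_normal hU
  refine ⟨_, ⟨V, hV, rfl⟩, fun h hh => hle ?_⟩
  show f' (e h) ∈ V
  rw [he]
  simpa using hn.conj_mem _ (show f h ∈ V from hh) g⁻¹

section Loc

variable {k : Type} [CommRing k] {V : Type} [AddCommGroup V] [Module k V] (S : Finset Nat.Primes)
  (ρ : Representation k GQ V)

/-- Localisation in degree `1` along a homomorphism to `G_ℚ`. -/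
def locAt1 {G : Type} [Group G] (r : G →* GQ) :
    H1c (sLevels S) ρ →ₗ[k] H1c (qLevels.comap r) (ρ.comp r) :=
  map1 (φ := LinearMap.id) ρ _ (isLevHom_comap_sLevels r S) (fun _ _ => rfl)

/-- Localisation in degree `2` along a homomorphism to `G_ℚ`. -/
def locAt2 {G : Type} [Group G] (r : G →* GQ) :
    H2c (sLevels S) ρ →ₗ[k] H2c (qLevels.comap r) (ρ.comp r) :=
  map2 (φ := LinearMap.id) ρ _ (isLevHom_comap_sLevels r S) (fun _ _ => rfl)

/-- Localisation in degree `1` at a decomposition group. -/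
abbrev decRes1 (A : ValuationSubring Qb) :
    H1c (sLevels S) ρ →ₗ[k] H1c (subLevels (A.decompositionSubgroup ℚ))
      (ρ.comp (A.decompositionSubgroup ℚ).subtype) :=
  locAt1 S ρ (A.decompositionSubgroup ℚ).subtype

/-- Localisation in degree `2` at a decomposition group. -/
abbrev decRes2 (A : ValuationSubring Qb) :
    H2c (sLevels S) ρ →ₗ[k] H2c (subLevels (A.decompositionSubgroup ℚ))
      (ρ.comp (A.decompositionSubgroup ℚ).subtype) :=
  locAt2 S ρ (A.decompositionSubgroup ℚ).subtype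

variable {H H' : Type} [Group H] [Group H'] {f : H →* GQ} {f' : H' →* GQ}

theorem locAt1_eq_zero_of_conj (hf : Function.Injective f') (g : GQ)
    (h : ∀ a, g⁻¹ * f a * g ∈ f'.range) {x : H1c (sLevels S) ρ} (hx : locAt1 S ρ f' x = 0) :
    locAt1 S ρ f x = 0 := by
  let c : H →* f'.range :=
    ((MulAut.conj g⁻¹).toMonoidHom.comp f).codRestrict _ fun a => by simpa using h a
  let e : H →* H' := (MonoidHom.ofInjective hf).symm.toMonoidHom.comp c
  have he : ∀ a, f' (e a) = g⁻¹ * f a * g := fun a => by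
    show f' ((MonoidHom.ofInjective hf).symm (c a)) = _
    rw [MonoidHom.apply_ofInjective_symm hf]
    simp [c]
  exact map1_eq_zero_of_conj ρ _ _ g e he (isLevHom_of_conj g e he) hx

theorem locAt2_eq_zero_of_conj (hf : Function.Injective f') (g : GQ)
    (h : ∀ a, g⁻¹ * f a * g ∈ f'.range) {x : H2c (sLevels S) ρ} (hx : locAt2 S ρ f' x = 0) :
    locAt2 S ρ f x = 0 := by
  let c : H →* f'.range :=
    ((MulAut.conj g⁻¹).toMonoidHom.comp f).codRestrict _ fun a => by simpa using h a
  let e : H →* H' := (MonoidHom.ofInjective hf).symm.toMonoidHom.comp c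
  have he : ∀ a, f' (e a) = g⁻¹ * f a * g := fun a => by
    show f' ((MonoidHom.ofInjective hf).symm (c a)) = _
    rw [MonoidHom.apply_ofInjective_symm hf]
    simp [c]
  exact map2_eq_zero_of_conj ρ _ _ g e he (isLevHom_of_conj g e he) hx

variable {q : Nat.Primes}

theorem exists_conj_decomposition {A B : ValuationSubring Qb} (hA : A.LiesOverPrime (q : ℕ))
    (hB : B.LiesOverPrime (q : ℕ)) :
    ∃ g : GQ, ∀ σ ∈ A.decompositionSubgroup ℚ, g⁻¹ * σ * g ∈ B.decompositionSubgroup ℚ := by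
  obtain ⟨g, hg⟩ := TW.exists_smul_eq q.2 hA hB
  refine ⟨g⁻¹, fun σ hσ => ?_⟩
  rw [← hg]
  simpa using TW.conj_mem_decomposition (g := g) hσ

theorem decRes1_eq_zero_iff {A B : ValuationSubring Qb} (hA : A.LiesOverPrime (q : ℕ))
    (hB : B.LiesOverPrime (q : ℕ)) (x : H1c (sLevels S) ρ) :
    decRes1 S ρ A x = 0 ↔ decRes1 S ρ B x = 0 := by
  obtain ⟨g, hg⟩ := exists_conj_decomposition hA hB
  obtain ⟨g', hg'⟩ := exists_conj_decomposition hB hA
  exact ⟨fun h => locAt1_eq_zero_of_conj S ρ (Subgroup.subtype_injective _) g'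
      (fun a => by simpa [Subgroup.range_subtype] using hg' _ a.2) h,
    fun h => locAt1_eq_zero_of_conj S ρ (Subgroup.subtype_injective _) g
      (fun a => by simpa [Subgroup.range_subtype] using hg _ a.2) h⟩

theorem decRes2_eq_zero_iff {A B : ValuationSubring Qb} (hA : A.LiesOverPrime (q : ℕ))
    (hB : B.LiesOverPrime (q : ℕ)) (x : H2c (sLevels S) ρ) :
    decRes2 S ρ A x = 0 ↔ decRes2 S ρ B x = 0 := by
  obtain ⟨g, hg⟩ := exists_conj_decomposition hA hB
  obtain ⟨g', hg'⟩ := exists_conj_decomposition hB hA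
  exact ⟨fun h => locAt2_eq_zero_of_conj S ρ (Subgroup.subtype_injective _) g'
      (fun a => by simpa [Subgroup.range_subtype] using hg' _ a.2) h,
    fun h => locAt2_eq_zero_of_conj S ρ (Subgroup.subtype_injective _) g
      (fun a => by simpa [Subgroup.range_subtype] using hg _ a.2) h⟩

theorem locAt1_prime_iff {A : ValuationSubring Qb} (hA : A.LiesOverPrime (q : ℕ))
    (x : H1c (sLevels S) ρ) :
    locAt1 S ρ (primeLocalToGlobal q) x = 0 ↔ decRes1 S ρ A x = 0 := by
  obtain ⟨hinj, hrange, hP⟩ := primeLocalToGlobal_bijOn q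
  rw [← decRes1_eq_zero_iff S ρ hP hA]
  refine ⟨fun h => locAt1_eq_zero_of_conj S ρ hinj 1 (fun a => ?_) h,
    fun h => locAt1_eq_zero_of_conj S ρ (Subgroup.subtype_injective _) 1 (fun a => ?_) h⟩
  · simp [hrange]
  · simp [Subgroup.range_subtype, ← hrange]

theorem locAt2_prime_iff {A : ValuationSubring Qb} (hA : A.LiesOverPrime (q : ℕ))
    (x : H2c (sLevels S) ρ) :
    locAt2 S ρ (primeLocalToGlobal q) x = 0 ↔ decRes2 S ρ A x = 0 := by
  obtain ⟨hinj, hrange, hP⟩ := primeLocalToGlobal_bijOn q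
  rw [← decRes2_eq_zero_iff S ρ hP hA]
  refine ⟨fun h => locAt2_eq_zero_of_conj S ρ hinj 1 (fun a => ?_) h,
    fun h => locAt2_eq_zero_of_conj S ρ (Subgroup.subtype_injective _) 1 (fun a => ?_) h⟩
  · simp [hrange]
  · simp [Subgroup.range_subtype, ← hrange]

theorem isUnit_card_archimedean (h2 : IsUnit (2 : k)) :
    ∃ _ : Fintype archimedeanDecomposition,
      IsUnit (Fintype.card archimedeanDecomposition : k) := by
  have h : orderOf complexConjugation ∣ 2 := orderOf_dvd_of_pow_eq_one complexConjugation_sq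
  have : Finite archimedeanDecomposition :=
    Nat.finite_of_card_ne_zero (by
      rw [archimedeanDecomposition, Nat.card_zpowers]
      exact fun h0 => by simp [h0] at h)
  let inst : Fintype archimedeanDecomposition := Fintype.ofFinite _
  refine ⟨inst, ?_⟩
  rw [← Nat.card_eq_fintype_card, archimedeanDecomposition, Nat.card_zpowers]
  rcases (Nat.dvd_prime Nat.prime_two).mp h with h' | h' <;> simp [h', h2]

theorem locAt1_archimedean (h2 : IsUnit (2 : k)) (x : H1c (sLevels S) ρ) :
    locAt1 S ρ archimedeanLoc x = 0 := by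
  obtain ⟨_, hu⟩ := isUnit_card_archimedean h2
  exact H1c_eq_zero_of_isUnit_card _ hu _

theorem locAt2_archimedean (h2 : IsUnit (2 : k)) (x : H2c (sLevels S) ρ) :
    locAt2 S ρ archimedeanLoc x = 0 := by
  obtain ⟨_, hu⟩ := isUnit_card_archimedean h2
  exact H2c_eq_zero_of_isUnit_card _ hu _

variable (A : Nat.Primes → ValuationSubring Qb)

/-- Classes in degree `1` trivial at the chosen places over `S`. -/
def shaDec1 : Submodule k (H1c (sLevels S) ρ) := ⨅ q : S, LinearMap.ker (decRes1 S ρ (A q))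

/-- Classes in degree `2` trivial at the chosen places over `S`. -/
def shaDec2 : Submodule k (H2c (sLevels S) ρ) := ⨅ q : S, LinearMap.ker (decRes2 S ρ (A q))

theorem mem_shaDec1 {x : H1c (sLevels S) ρ} :
    x ∈ shaDec1 S ρ A ↔ ∀ q ∈ S, decRes1 S ρ (A q) x = 0 := by
  simp [shaDec1]

theorem mem_shaDec2 {x : H2c (sLevels S) ρ} :
    x ∈ shaDec2 S ρ A ↔ ∀ q ∈ S, decRes2 S ρ (A q) x = 0 := by
  simp [shaDec2]

end Loc

section Sha

variable (S : Finset Nat.Primes) (A : Nat.Primes → ValuationSubring Qb)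
  (hA : ∀ q, (A q).LiesOverPrime (q : ℕ))

include hA in
theorem mem_sha₁_iff {K : Type} [Field K] (M : Rep K GQ) (h2 : (2 : K) ≠ 0)
    (x : H1c (sLevels S) M.ρ) : toH1 (sLevels S) M x ∈ sha₁ S M ↔ x ∈ shaDec1 S M.ρ A := by
  have hS : toH1 (sLevels S) M x ∈ continuousH1S S M := (continuousH1SEquiv M S x).2
  have key : ∀ v : extArithIndex S, (locRes (extArithLoc S) M v).hom (toH1 (sLevels S) M x) = 0 ↔
      locAt1 S M.ρ (extArithLoc S v) x = 0 := fun v => by
    rw [show (locRes (extArithLoc S) M v).hom (toH1 (sLevels S) M x) =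
      toH1 (qLevels.comap (extArithLoc S v)) (Rep.res (extArithLoc S v) M)
        (locAt1 S M.ρ (extArithLoc S v) x) from map_toH1 _ _ _ x]
    exact map_eq_zero_iff _ (toH1_injective _ _)
  rw [sha₁, Submodule.mem_inf, LinearMap.mem_ker, funext_iff, mem_shaDec1]
  simp only [hS, true_and, locTotal_apply, Pi.zero_apply, key]
  constructor
  · exact fun h q hq => (locAt1_prime_iff S M.ρ (hA q) x).1 (h (Sum.inr ⟨q, hq⟩))
  · rintro h (u | ⟨q, hq⟩)
    · exact locAt1_archimedean S M.ρ h2.isUnit x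
    · exact (locAt1_prime_iff S M.ρ (hA q) x).2 (h q hq)

include hA in
theorem mem_sha₂_iff {k : Type} [CommRing k] (M : Rep k GQ) (h2 : IsUnit (2 : k))
    (x : H2c (sLevels S) M.ρ) :
    continuousH2SEquiv M S x ∈ sha₂ S M ↔ x ∈ shaDec2 S M.ρ A := by
  have key : ∀ v : extArithIndex S,
      locRes₂S S M (extArithLoc S v) (continuousH2SEquiv M S x) = 0 ↔
        locAt2 S M.ρ (extArithLoc S v) x = 0 := fun v => by
    rw [locRes₂S_continuousH2SEquiv (extArithLoc S v) M S (isLevHom_comap_sLevels _ S) x]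
    exact LinearEquiv.map_eq_zero_iff _
  rw [sha₂, LinearMap.mem_ker, funext_iff, mem_shaDec2]
  simp only [locTotal₂S_apply, Pi.zero_apply, key]
  constructor
  · exact fun h q hq => (locAt2_prime_iff S M.ρ (hA q) x).1 (h (Sum.inr ⟨q, hq⟩))
  · rintro h (u | ⟨q, hq⟩)
    · exact locAt2_archimedean S M.ρ h2 x
    · exact (locAt2_prime_iff S M.ρ (hA q) x).2 (h q hq)

include hA in
/-- `sha₁` in terms of decomposition groups. -/
def sha₁Equiv {K : Type} [Field K] (M : Rep K GQ) (h2 : (2 : K) ≠ 0) :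
    shaDec1 S M.ρ A ≃ₗ[K] sha₁ S M :=
  LinearEquiv.ofBijective
    (((toH1 (sLevels S) M).domRestrict (shaDec1 S M.ρ A)).codRestrict (sha₁ S M)
      fun x => (mem_sha₁_iff S A hA M h2 x.1).2 x.2)
    ⟨fun a b e => Subtype.ext (toH1_injective _ M (congrArg Subtype.val e)), fun y => by
      obtain ⟨x, hx⟩ : y.1 ∈ LinearMap.range (toH1 (sLevels S) M) := by
        rw [range_toH1_sLevels]; exact y.2.1
      exact ⟨⟨x, (mem_sha₁_iff S A hA M h2 x).1 (by rw [hx]; exact y.2)⟩, Subtype.ext hx⟩⟩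

include hA in
/-- `sha₂` in terms of decomposition groups. -/
def sha₂Equiv {k : Type} [CommRing k] (M : Rep k GQ) (h2 : IsUnit (2 : k)) :
    shaDec2 S M.ρ A ≃ₗ[k] sha₂ S M :=
  (continuousH2SEquiv M S).ofSubmodules _ _ <| by
    ext y
    rw [Submodule.mem_map_equiv, ← mem_sha₂_iff S A hA M h2, LinearEquiv.apply_symm_apply]

end Sha

end

end FermatAgent.Duality
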